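import Fermat.Agent.S36.Mod.MidEmb

/-!
# S36/Mod/Mid : interface for the middle embeddings `τ_z : F_{Nℓ²} → ℚ̄((x))`

`IsMid N ℓ z τ` :  `τ ∘ α' = inclusion of F_{Nℓ}`  and  `τ (β' (β f)) = f(z x)`  (`f ∈ F_N`).

* `exists_isMid`        : existence for every primitive `ℓ`-th root of unity `z`;
* `IsMid.ext`           : uniqueness;
* `IsMid.beta_alpha`    : `τ (β' (α f)) = f(x^ℓ)`;
* `IsMid.galois`        : `σ(τ_z y) = τ_{σ z}(σ y)` (coefficientwise action);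
* `IsMid.comp_w2`       : `τ_z ∘ w₂ = twist z ∘ τ_{z⁻¹}`;
* `induction_gen2`      : `F_{Nℓ²}` is generated by `ℚ̄`, `α'α F_N`, `α'β F_N`, `β'β F_N`.
-/

set_option autoImplicit false

open AlgebraicCurve ModularCurve

namespace Fermat.Agent.S36.Mod

open Fermat.Agent.ES Fermat.Agent.SS Fermat.Agent.S24

noncomputable section

variable {N ℓ : ℕ} [NeZero N] [NeZero ℓ]

/-- `F_{Nℓ²}` is generated as a field by `ℚ̄`, `α'α(F_N)`, `α'β(F_N)` and `β'β(F_N)`. -/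
theorem induction_gen2 (hℓ : ℓ.Prime) (P : FF (N * ℓ * ℓ) → Prop)
    (hc : ∀ c : Qb, P (algebraMap Qb (FF (N * ℓ * ℓ)) c))
    (haa : ∀ f : FF N, P (heckeAlphaBar Qb (N * ℓ) ℓ (heckeAlphaBar Qb N ℓ f)))
    (hab : ∀ f : FF N, P (heckeAlphaBar Qb (N * ℓ) ℓ (heckeBetaBar Qb N ℓ f)))
    (hbb : ∀ f : FF N, P (heckeBetaBar Qb (N * ℓ) ℓ (heckeBetaBar Qb N ℓ f)))
    (hadd : ∀ x y, P x → P y → P (x + y)) (hmul : ∀ x y, P x → P y → P (x * y))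
    (hinv : ∀ x, P x → P x⁻¹) (x : FF (N * ℓ * ℓ)) : P x := by
  refine induction_gen (M := N * ℓ) hℓ P hc ?_ ?_ hadd hmul hinv x
  · intro g
    refine induction_gen hℓ (fun g => P (heckeAlphaBar Qb (N * ℓ) ℓ g)) ?_ haa hab ?_ ?_ ?_ g
    · intro c; rw [AlgHom.commutes]; exact hc c
    · intro x y hx hy; rw [map_add]; exact hadd _ _ hx hy
    · intro x y hx hy; rw [map_mul]; exact hmul _ _ hx hy
    · intro x hx; rw [map_inv₀]; exact hinv _ hx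
  · intro g
    refine induction_gen hℓ (fun g => P (heckeBetaBar Qb (N * ℓ) ℓ g)) ?_ ?_ hbb ?_ ?_ ?_ g
    · intro c; rw [AlgHom.commutes]; exact hc c
    · intro f; rw [← alpha_beta_eq]; exact hab f
    · intro x y hx hy; rw [map_add]; exact hadd _ _ hx hy
    · intro x y hx hy; rw [map_mul]; exact hmul _ _ hx hy
    · intro x hx; rw [map_inv₀]; exact hinv _ hx

theorem twist_algebraMap (z : Qbˣ) (c : Qb) :
    twist z (algebraMap Qb (LaurentSeries Qb) c) = algebraMap Qb (LaurentSeries Qb) c := by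
  ext n
  rw [twist_coeff, algebraMap_laurentSeries_eq_single, HahnSeries.coeff_single]
  split_ifs with h
  · subst h; simp
  · simp

/-- `q ↦ z q` as a `ℚ̄`-algebra homomorphism. -/
def twistAlg (z : Qbˣ) : LaurentSeries Qb →ₐ[Qb] LaurentSeries Qb :=
  { twist z with commutes' := twist_algebraMap z }

@[simp]
theorem twistAlg_apply (z : Qbˣ) (x : LaurentSeries Qb) : twistAlg z x = twist z x := rfl

/-- `τ` is the middle embedding attached to `z`. -/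
structure IsMid (N ℓ : ℕ) [NeZero N] [NeZero ℓ] (z : Qbˣ)
    (τ : FF (N * ℓ * ℓ) →ₐ[Qb] LaurentSeries Qb) : Prop where
  alpha : ∀ g : FF (N * ℓ), τ (heckeAlphaBar Qb (N * ℓ) ℓ g) = (g : LaurentSeries Qb)
  bb : ∀ f : FF N, τ (heckeBetaBar Qb (N * ℓ) ℓ (heckeBetaBar Qb N ℓ f))
    = twist z (f : LaurentSeries Qb)

theorem exists_isMid (hℓ : ℓ.Prime) (hN : ¬ ℓ ∣ N) (z : Qbˣ) (hz : IsPrimitiveRoot (z : Qb) ℓ) :
    ∃ τ : FF (N * ℓ * ℓ) →ₐ[Qb] LaurentSeries Qb, IsMid N ℓ z τ := by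
  obtain ⟨τ, hτ⟩ := exists_midEmb_gen hℓ hN z hz
  refine ⟨τ, ⟨?_, ?_⟩⟩
  · intro g
    have : τ.comp (heckeAlphaBar Qb (N * ℓ) ℓ) = (modularFunctionFieldBar (N * ℓ)).val := by
      apply algHom_ext_FN (N * ℓ)
      intro d
      have hd : d.1 ∣ N * ℓ * ℓ := d.2.trans (dvd_mul_right _ ℓ)
      have e1 : heckeAlphaBar Qb (N * ℓ) ℓ (jF (N * ℓ) d.1 d.2) = jF (N * ℓ * ℓ) d.1 hd := by
        apply Subtype.ext
        rfl
      rw [AlgHom.comp_apply, e1, hτ ⟨d.1, hd⟩, midSer_of_not_dvd]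
      · rfl
      · intro h
        apply hN
        have h2 : ℓ * ℓ ∣ ℓ * N := by rw [mul_comm ℓ N]; exact h.trans d.2
        exact Nat.dvd_of_mul_dvd_mul_left hℓ.pos h2
    exact AlgHom.congr_fun this g
  · intro f
    have : τ.comp ((heckeBetaBar Qb (N * ℓ) ℓ).comp (heckeBetaBar Qb N ℓ))
        = (twistAlg z).comp (modularFunctionFieldBar N).val := by
      apply algHom_ext_FN N
      intro d
      have hd : ℓ * ℓ * d.1 ∣ N * ℓ * ℓ := by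
        rw [show N * ℓ * ℓ = ℓ * ℓ * N by ring]; exact mul_dvd_mul_left _ d.2
      have e1 : heckeBetaBar Qb (N * ℓ) ℓ (heckeBetaBar Qb N ℓ (jF N d.1 d.2))
          = jF (N * ℓ * ℓ) (ℓ * ℓ * d.1) hd := by
        apply Subtype.ext
        rw [coe_heckeBetaBar, coe_heckeBetaBar]
        show qExpand Qb ℓ (qExpand Qb ℓ (jSer d.1)) = jSer (ℓ * ℓ * d.1)
        rw [← AL2_jSer_mul ℓ d.1, ← AL2_jSer_mul ℓ (ℓ * d.1)]
        exact AtkinLehner.jSer_congr (by ring)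
      rw [AlgHom.comp_apply, AlgHom.comp_apply, e1, hτ ⟨ℓ * ℓ * d.1, hd⟩,
        midSer_of_eq N ℓ z ⟨ℓ * ℓ * d.1, hd⟩ d.1 rfl]
      rfl
    exact AlgHom.congr_fun this f

variable {z : Qbˣ} {τ : FF (N * ℓ * ℓ) →ₐ[Qb] LaurentSeries Qb}

theorem IsMid.aa (h : IsMid N ℓ z τ) (f : FF N) :
    τ (heckeAlphaBar Qb (N * ℓ) ℓ (heckeAlphaBar Qb N ℓ f)) = (f : LaurentSeries Qb) := by
  rw [h.alpha, coe_heckeAlphaBar]

theorem IsMid.ab (h : IsMid N ℓ z τ) (f : FF N) :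
    τ (heckeAlphaBar Qb (N * ℓ) ℓ (heckeBetaBar Qb N ℓ f)) = Vq Qb ℓ (f : LaurentSeries Qb) := by
  rw [h.alpha, coe_heckeBetaBar]

theorem IsMid.beta_alpha (h : IsMid N ℓ z τ) (f : FF N) :
    τ (heckeBetaBar Qb (N * ℓ) ℓ (heckeAlphaBar Qb N ℓ f)) = Vq Qb ℓ (f : LaurentSeries Qb) := by
  rw [← alpha_beta_eq, h.ab]

/-- uniqueness. -/
theorem IsMid.ext {τ' : FF (N * ℓ * ℓ) →ₐ[Qb] LaurentSeries Qb} (h : IsMid N ℓ z τ)
    (h' : IsMid N ℓ z τ') (hℓ : ℓ.Prime) : τ = τ' := by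
  refine AlgHom.ext fun x => ?_
  refine induction_gen2 hℓ (fun x => τ x = τ' x) ?_ ?_ ?_ ?_ ?_ ?_ ?_ x
  · intro c; rw [AlgHom.commutes, AlgHom.commutes]
  · intro f; rw [h.aa, h'.aa]
  · intro f; rw [h.ab, h'.ab]
  · intro f; rw [h.bb, h'.bb]
  · intro x y hx hy; rw [map_add, map_add, hx, hy]
  · intro x y hx hy; rw [map_mul, map_mul, hx, hy]
  · intro x hx; rw [map_inv₀, map_inv₀, hx]

/-- Galois equivariance: `σ(τ_z y) = τ_{σ z}(σ y)`. -/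
theorem IsMid.galois {z' : Qbˣ} {τ' : FF (N * ℓ * ℓ) →ₐ[Qb] LaurentSeries Qb}
    (h : IsMid N ℓ z τ) (h' : IsMid N ℓ z' τ') (hℓ : ℓ.Prime) (σ : GQ)
    (hσ : z' = Units.map (σ : Qb →* Qb) z) (x : FF (N * ℓ * ℓ)) :
    coeffMap (σ : Qb →+* Qb) (τ x) = τ' (galF (N * ℓ * ℓ) σ x) := by
  refine induction_gen2 hℓ (fun x => coeffMap (σ : Qb →+* Qb) (τ x) = τ' (galF (N * ℓ * ℓ) σ x))
    ?_ ?_ ?_ ?_ ?_ ?_ ?_ x
  · intro c
    rw [AlgHom.commutes, galF_algebraMap', AlgHom.commutes]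
    exact coeffMap_algebraMap (σ : Qb →+* Qb) c
  · intro f; rw [h.aa, galF_alpha, galF_alpha, h'.aa, coe_galF]
  · intro f; rw [h.ab, galF_alpha, galF_beta, h'.ab, coe_galF, coeffMap_Vq]
  · intro f
    rw [h.bb, galF_beta, galF_beta, h'.bb, coe_galF, coeffMap_twist, hσ]
    rfl
  · intro x y hx hy; rw [map_add, map_add, map_add, map_add, hx, hy]
  · intro x y hx hy; rw [map_mul, map_mul, map_mul, map_mul, hx, hy]
  · intro x hx; rw [map_inv₀, map_inv₀, map_inv₀, map_inv₀, hx]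

/-- `τ_z ∘ w₂ = twist z ∘ τ_{z⁻¹}`. -/
theorem IsMid.comp_w2 {τ' : FF (N * ℓ * ℓ) →ₐ[Qb] LaurentSeries Qb}
    {w₂ : FF (N * ℓ * ℓ) →ₐ[Qb] FF (N * ℓ * ℓ)}
    (h : IsMid N ℓ z τ) (h' : IsMid N ℓ z⁻¹ τ') (h₂ : IsAL2 N ℓ w₂) (hℓ : ℓ.Prime)
    (hz : z ^ ℓ = 1) (x : FF (N * ℓ * ℓ)) : τ (w₂ x) = twist z (τ' x) := by
  refine induction_gen2 hℓ (fun x => τ (w₂ x) = twist z (τ' x)) ?_ ?_ ?_ ?_ ?_ ?_ ?_ x
  · intro c; rw [AlgHom.commutes, AlgHom.commutes, AlgHom.commutes, twist_algebraMap]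
  · intro f; rw [h₂.aa, h.bb, h'.aa]
  · intro f; rw [h₂.ab, h.ab, h'.ab, twist_Vq ℓ z hz]
  · intro f; rw [h₂.bb, h.aa, h'.bb, twist_twist, mul_inv_cancel, twist_one]
  · intro x y hx hy; rw [map_add, map_add, map_add, map_add, hx, hy]
  · intro x y hx hy; rw [map_mul, map_mul, map_mul, map_mul, hx, hy]
  · intro x hx; rw [map_inv₀, map_inv₀, map_inv₀, map_inv₀, hx]

end

end Fermat.Agent.S36.Mod
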