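import Fermat.Agent.S36.Mod.ALQ

/-!
# S36/Mod/AL2 : the Atkin–Lehner involution `w₂ = W_{ℓ²}` of `F_{Nℓ²}`, `ℓ ∤ N`

Levels `N`, `N * ℓ`, `N * ℓ * ℓ`.  `α, β : F_N → F_{Nℓ}` and `α', β' : F_{Nℓ} → F_{Nℓ²}` are
`heckeAlphaBar`, `heckeBetaBar` (`f(t) ↦ f(t)`, `f(t) ↦ f(t^ℓ)`).

* `IsAL2 N ℓ w₂` : `w₂ (α' (α f)) = β' (β f)`, `w₂ (α' (β f)) = α' (β f)`, `w₂ (β' (β f)) = α' (α f)`;
* `exists_isAL2` : existence;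
* `IsAL2.alpha`, `IsAL2.beta` : `w₂ ∘ α' = β' ∘ w₁`, `w₂ ∘ β' = α' ∘ w₁` for every `w₁` with
  `SS.IsAL N ℓ w₁`;
* `IsAL2.invol`, `IsAL2.galF_comm`, `IsAL2.wU2_mem_Dm`, `w2Kum` : involution, commutes with Galois,
  acts on the Kummer module.
-/

set_option autoImplicit false

open AlgebraicCurve ModularCurve

namespace Fermat.Agent.S36.Mod

open Fermat.Agent.ES Fermat.Agent.SS

noncomputable section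

variable {N ℓ : ℕ} [NeZero N] [NeZero ℓ]

/-- `w₂` is the Atkin–Lehner involution `W_{ℓ²}` of the function field of `X₀(N ℓ²)`. -/
structure IsAL2 (N ℓ : ℕ) [NeZero N] [NeZero ℓ] (w₂ : FF (N * ℓ * ℓ) →ₐ[Qb] FF (N * ℓ * ℓ)) :
    Prop where
  aa : ∀ f : FF N, w₂ (heckeAlphaBar Qb (N * ℓ) ℓ (heckeAlphaBar Qb N ℓ f))
    = heckeBetaBar Qb (N * ℓ) ℓ (heckeBetaBar Qb N ℓ f)
  ab : ∀ f : FF N, w₂ (heckeAlphaBar Qb (N * ℓ) ℓ (heckeBetaBar Qb N ℓ f))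
    = heckeAlphaBar Qb (N * ℓ) ℓ (heckeBetaBar Qb N ℓ f)
  bb : ∀ f : FF N, w₂ (heckeBetaBar Qb (N * ℓ) ℓ (heckeBetaBar Qb N ℓ f))
    = heckeAlphaBar Qb (N * ℓ) ℓ (heckeAlphaBar Qb N ℓ f)

/-- `α' ∘ β = β' ∘ α` (both are `f(t) ↦ f(t^ℓ)`). -/
theorem alpha_beta_eq (f : FF N) :
    heckeAlphaBar Qb (N * ℓ) ℓ (heckeBetaBar Qb N ℓ f)
      = heckeBetaBar Qb (N * ℓ) ℓ (heckeAlphaBar Qb N ℓ f) := by
  apply Subtype.ext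
  rw [coe_heckeAlphaBar, coe_heckeBetaBar, coe_heckeBetaBar, coe_heckeAlphaBar]

theorem AL2_jSer_mul (a d : ℕ) [NeZero a] [NeZero d] [NeZero (a * d)] :
    S24.jSer (a * d) = qExpand Qb a (S24.jSer d) := by
  show coeffEmb S24.Kb (qExpand ℚ (a * d) jq) = qExpand Qb a (coeffEmb S24.Kb (qExpand ℚ d jq))
  rw [← qExpand_qExpand]
  exact coeffMap_qExpand _ _ _

theorem exists_isAL2 (hℓ : ℓ.Prime) (hN : ¬ ℓ ∣ N) :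
    ∃ w₂ : FF (N * ℓ * ℓ) →ₐ[Qb] FF (N * ℓ * ℓ), IsAL2 N ℓ w₂ := by
  have hcop : Nat.Coprime N (ℓ * ℓ) := by
    have h1 : Nat.Coprime N ℓ := ((Nat.Prime.coprime_iff_not_dvd hℓ).mpr hN).symm
    exact Nat.Coprime.mul_right h1 h1
  obtain ⟨w, hw⟩ := exists_atkinLehnerQ (N * ℓ * ℓ) N (ℓ * ℓ) (mul_assoc N ℓ ℓ) hcop
  -- the three families of generators
  have c0 : ∀ d : S24.Dv N, ∀ (h : d.1 * 1 ∣ N * ℓ * ℓ) (_ : NeZero (d.1 * 1)),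
      heckeAlphaBar Qb (N * ℓ) ℓ (heckeAlphaBar Qb N ℓ (S24.jF N d.1 d.2))
        = S24.jF (N * ℓ * ℓ) (d.1 * 1) h := by
    intro d h _
    apply Subtype.ext
    rw [coe_heckeAlphaBar, coe_heckeAlphaBar]
    show S24.jSer d.1 = S24.jSer (d.1 * 1)
    exact AtkinLehner.jSer_congr (mul_one _).symm
  have c1 : ∀ d : S24.Dv N, ∀ (h : d.1 * ℓ ∣ N * ℓ * ℓ) (_ : NeZero (d.1 * ℓ)),
      heckeAlphaBar Qb (N * ℓ) ℓ (heckeBetaBar Qb N ℓ (S24.jF N d.1 d.2))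
        = S24.jF (N * ℓ * ℓ) (d.1 * ℓ) h := by
    intro d h _
    apply Subtype.ext
    rw [coe_heckeAlphaBar, coe_heckeBetaBar]
    show qExpand Qb ℓ (S24.jSer d.1) = S24.jSer (d.1 * ℓ)
    rw [← AL2_jSer_mul ℓ d.1]
    exact AtkinLehner.jSer_congr (mul_comm _ _)
  have c2 : ∀ d : S24.Dv N, ∀ (h : d.1 * (ℓ * ℓ) ∣ N * ℓ * ℓ) (_ : NeZero (d.1 * (ℓ * ℓ))),
      heckeBetaBar Qb (N * ℓ) ℓ (heckeBetaBar Qb N ℓ (S24.jF N d.1 d.2))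
        = S24.jF (N * ℓ * ℓ) (d.1 * (ℓ * ℓ)) h := by
    intro d h _
    apply Subtype.ext
    rw [coe_heckeBetaBar, coe_heckeBetaBar]
    show qExpand Qb ℓ (qExpand Qb ℓ (S24.jSer d.1)) = S24.jSer (d.1 * (ℓ * ℓ))
    rw [← AL2_jSer_mul ℓ d.1, ← AL2_jSer_mul ℓ (ℓ * d.1)]
    exact AtkinLehner.jSer_congr (by ring)
  have d0 : ∀ d : S24.Dv N, d.1 * 1 ∣ N * ℓ * ℓ := fun d => by
    rw [mul_one]; exact d.2.trans ((dvd_mul_right N ℓ).trans (dvd_mul_right _ ℓ))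
  have d1 : ∀ d : S24.Dv N, d.1 * ℓ ∣ N * ℓ * ℓ := fun d =>
    (mul_dvd_mul_right d.2 ℓ).trans (dvd_mul_right _ ℓ)
  have d2 : ∀ d : S24.Dv N, d.1 * (ℓ * ℓ) ∣ N * ℓ * ℓ := fun d => by
    rw [mul_assoc N ℓ ℓ]; exact mul_dvd_mul_right d.2 _
  refine ⟨w, ⟨?_, ?_, ?_⟩⟩
  · intro f
    have : (w.comp ((heckeAlphaBar Qb (N * ℓ) ℓ).comp (heckeAlphaBar Qb N ℓ)))
        = (heckeBetaBar Qb (N * ℓ) ℓ).comp (heckeBetaBar Qb N ℓ) := by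
      apply S24.algHom_ext_FN N
      intro d
      rw [AlgHom.comp_apply, AlgHom.comp_apply, AlgHom.comp_apply, c0 d (d0 d) inferInstance,
        c2 d (d2 d) inferInstance]
      exact hw d.1 1 (ℓ * ℓ) _ _ d.2 (one_mul _) _ _
    exact AlgHom.congr_fun this f
  · intro f
    have : (w.comp ((heckeAlphaBar Qb (N * ℓ) ℓ).comp (heckeBetaBar Qb N ℓ)))
        = (heckeAlphaBar Qb (N * ℓ) ℓ).comp (heckeBetaBar Qb N ℓ) := by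
      apply S24.algHom_ext_FN N
      intro d
      rw [AlgHom.comp_apply, AlgHom.comp_apply, c1 d (d1 d) inferInstance]
      exact hw d.1 ℓ ℓ _ _ d.2 rfl _ _
    exact AlgHom.congr_fun this f
  · intro f
    have : (w.comp ((heckeBetaBar Qb (N * ℓ) ℓ).comp (heckeBetaBar Qb N ℓ)))
        = (heckeAlphaBar Qb (N * ℓ) ℓ).comp (heckeAlphaBar Qb N ℓ) := by
      apply S24.algHom_ext_FN N
      intro d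
      rw [AlgHom.comp_apply, AlgHom.comp_apply, AlgHom.comp_apply, c0 d (d0 d) inferInstance,
        c2 d (d2 d) inferInstance]
      exact hw d.1 (ℓ * ℓ) 1 _ _ d.2 (mul_one _) _ _
    exact AlgHom.congr_fun this f

variable {w₂ : FF (N * ℓ * ℓ) →ₐ[Qb] FF (N * ℓ * ℓ)} {w₁ : FF (N * ℓ) →ₐ[Qb] FF (N * ℓ)}

/-- `w₂ ∘ α' = β' ∘ w₁`. -/
theorem IsAL2.alpha (h₂ : IsAL2 N ℓ w₂) (h₁ : IsAL N ℓ w₁) (hℓ : ℓ.Prime) (g : FF (N * ℓ)) :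
    w₂ (heckeAlphaBar Qb (N * ℓ) ℓ g) = heckeBetaBar Qb (N * ℓ) ℓ (w₁ g) := by
  refine induction_gen hℓ (fun g => w₂ (heckeAlphaBar Qb (N * ℓ) ℓ g)
    = heckeBetaBar Qb (N * ℓ) ℓ (w₁ g)) ?_ ?_ ?_ ?_ ?_ ?_ g
  · intro c; rw [AlgHom.commutes, AlgHom.commutes, AlgHom.commutes, AlgHom.commutes]
  · intro f; rw [h₂.aa, h₁.alpha]
  · intro f; rw [h₂.ab, h₁.beta, alpha_beta_eq]
  · intro x y hx hy; rw [map_add, map_add, map_add, map_add, hx, hy]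
  · intro x y hx hy; rw [map_mul, map_mul, map_mul, map_mul, hx, hy]
  · intro x hx; rw [map_inv₀, map_inv₀, map_inv₀, map_inv₀, hx]

/-- `w₂ ∘ β' = α' ∘ w₁`. -/
theorem IsAL2.beta (h₂ : IsAL2 N ℓ w₂) (h₁ : IsAL N ℓ w₁) (hℓ : ℓ.Prime) (g : FF (N * ℓ)) :
    w₂ (heckeBetaBar Qb (N * ℓ) ℓ g) = heckeAlphaBar Qb (N * ℓ) ℓ (w₁ g) := by
  refine induction_gen hℓ (fun g => w₂ (heckeBetaBar Qb (N * ℓ) ℓ g)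
    = heckeAlphaBar Qb (N * ℓ) ℓ (w₁ g)) ?_ ?_ ?_ ?_ ?_ ?_ g
  · intro c; rw [AlgHom.commutes, AlgHom.commutes, AlgHom.commutes, AlgHom.commutes]
  · intro f; rw [← alpha_beta_eq, h₂.ab, h₁.alpha]
  · intro f; rw [h₂.bb, h₁.beta]
  · intro x y hx hy; rw [map_add, map_add, map_add, map_add, hx, hy]
  · intro x y hx hy; rw [map_mul, map_mul, map_mul, map_mul, hx, hy]
  · intro x hx; rw [map_inv₀, map_inv₀, map_inv₀, map_inv₀, hx]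

theorem IsAL2.invol (h₂ : IsAL2 N ℓ w₂) (hℓ : ℓ.Prime) (hN : ¬ ℓ ∣ N) (x : FF (N * ℓ * ℓ)) :
    w₂ (w₂ x) = x := by
  obtain ⟨w₁, h₁⟩ := exists_isAL N ℓ hℓ hN
  refine induction_gen (M := N * ℓ) hℓ (fun x => w₂ (w₂ x) = x) ?_ ?_ ?_ ?_ ?_ ?_ x
  · intro c; rw [AlgHom.commutes, AlgHom.commutes]
  · intro f; rw [h₂.alpha h₁ hℓ, h₂.beta h₁ hℓ, h₁.invol hℓ]
  · intro f; rw [h₂.beta h₁ hℓ, h₂.alpha h₁ hℓ, h₁.invol hℓ]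
  · intro x y hx hy; rw [map_add, map_add, hx, hy]
  · intro x y hx hy; rw [map_mul, map_mul, hx, hy]
  · intro x hx; rw [map_inv₀, map_inv₀, hx]

theorem IsAL2.galF_comm (h₂ : IsAL2 N ℓ w₂) (hℓ : ℓ.Prime) (hN : ¬ ℓ ∣ N) (σ : GQ)
    (x : FF (N * ℓ * ℓ)) : galF (N * ℓ * ℓ) σ (w₂ x) = w₂ (galF (N * ℓ * ℓ) σ x) := by
  obtain ⟨w₁, h₁⟩ := exists_isAL N ℓ hℓ hN
  refine induction_gen (M := N * ℓ) hℓ
    (fun x => galF (N * ℓ * ℓ) σ (w₂ x) = w₂ (galF (N * ℓ * ℓ) σ x)) ?_ ?_ ?_ ?_ ?_ ?_ x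
  · intro c; rw [AlgHom.commutes, galF_algebraMap', AlgHom.commutes]
  · intro f; rw [h₂.alpha h₁ hℓ, galF_beta, galF_alpha, h₂.alpha h₁ hℓ, h₁.galF_comm hℓ]
  · intro f; rw [h₂.beta h₁ hℓ, galF_beta, galF_alpha, h₂.beta h₁ hℓ, h₁.galF_comm hℓ]
  · intro x y hx hy; rw [map_add, map_add, map_add, map_add, hx, hy]
  · intro x y hx hy; rw [map_mul, map_mul, map_mul, map_mul, hx, hy]
  · intro x hx; rw [map_inv₀, map_inv₀, map_inv₀, map_inv₀, hx]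

/-- `w₂` on units. -/
def wU2 (w₂ : FF (N * ℓ * ℓ) →ₐ[Qb] FF (N * ℓ * ℓ)) : (FF (N * ℓ * ℓ))ˣ →* (FF (N * ℓ * ℓ))ˣ :=
  Units.map (w₂ : FF (N * ℓ * ℓ) →* FF (N * ℓ * ℓ))

omit [NeZero N] [NeZero ℓ] in
@[simp]
theorem coe_wU2 (f : (FF (N * ℓ * ℓ))ˣ) :
    ((wU2 w₂ f : (FF (N * ℓ * ℓ))ˣ) : FF (N * ℓ * ℓ)) = w₂ f := rfl

theorem IsAL2.wU2_mem_Dm (h₂ : IsAL2 N ℓ w₂) (hℓ : ℓ.Prime) (hN : ¬ ℓ ∣ N) {m : ℕ}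
    {f : (FF (N * ℓ * ℓ))ˣ} (hf : f ∈ Dm (N * ℓ * ℓ) m) : wU2 w₂ f ∈ Dm (N * ℓ * ℓ) m := by
  have hint : w₂.toRingHom.IsIntegral :=
    RingHom.isIntegral_of_surjective _ (fun x => ⟨w₂ x, h₂.invol hℓ hN x⟩)
  intro Q
  rw [coe_wU2, Place.ord_restrictAlong w₂ hint Q (f : FF (N * ℓ * ℓ))]
  exact Dvd.dvd.mul_left (hf _) _

/-- `w₂` on the Kummer module. -/
def w2Kum (h₂ : IsAL2 N ℓ w₂) (hℓ : ℓ.Prime) (hN : ¬ ℓ ∣ N) (m : ℕ) :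
    Kum (N * ℓ * ℓ) m →+ Kum (N * ℓ * ℓ) m :=
  kumMap (wU2 w₂) (fun _ hf => h₂.wU2_mem_Dm hℓ hN hf)

theorem w2Kum_mk (h₂ : IsAL2 N ℓ w₂) (hℓ : ℓ.Prime) (hN : ¬ ℓ ∣ N) {m : ℕ}
    (f : Dm (N * ℓ * ℓ) m) :
    w2Kum h₂ hℓ hN m (Kum.mk f) = Kum.mk ⟨wU2 w₂ f, h₂.wU2_mem_Dm hℓ hN f.2⟩ := rfl

theorem w2Kum_w2Kum (h₂ : IsAL2 N ℓ w₂) (hℓ : ℓ.Prime) (hN : ¬ ℓ ∣ N) {m : ℕ}
    (x : Kum (N * ℓ * ℓ) m) : w2Kum h₂ hℓ hN m (w2Kum h₂ hℓ hN m x) = x := by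
  obtain ⟨f, rfl⟩ := Kum.mk_surjective x
  rw [w2Kum_mk, w2Kum_mk]
  exact mk_congr (h₂.invol hℓ hN _)

theorem galKum_w2Kum (h₂ : IsAL2 N ℓ w₂) (hℓ : ℓ.Prime) (hN : ¬ ℓ ∣ N) {m : ℕ} (σ : GQ)
    (x : Kum (N * ℓ * ℓ) m) :
    galKum (N * ℓ * ℓ) m σ (w2Kum h₂ hℓ hN m x) = w2Kum h₂ hℓ hN m (galKum (N * ℓ * ℓ) m σ x) := by
  obtain ⟨f, rfl⟩ := Kum.mk_surjective x
  rw [w2Kum_mk, galKum_mk, galKum_mk, w2Kum_mk]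
  exact mk_congr (h₂.galF_comm hℓ hN σ _)

end

end Fermat.Agent.S36.Mod
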