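import Fermat.Agent.SS.Formal.AL

/-!
# S36/Mod/ALQ : the Atkin–Lehner involution `W_Q` of the function field of `X₀(N Q)`, `(N, Q) = 1`

`w (j(q^{e u})) = j(q^{e u'})` for `e ∣ N`, `u u' = Q`.
-/

set_option autoImplicit false

open AlgebraicCurve ModularCurve UpperHalfPlane
open scoped MatrixGroups

namespace Fermat.Agent.S36.Mod

open Fermat.Agent.ES Fermat.Agent.S24 Fermat.Agent.S24.Hermite

noncomputable section

/-- the swap `e u ↦ e (Q / u)` (`e ∣ N`, `u ∣ Q`) on the divisors of `N Q`. -/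
def swapQ (N Q : ℕ) (d : Dv (N * Q)) : Dv (N * Q) :=
  ⟨Nat.gcd d.1 N * (Q / Nat.gcd d.1 Q),
    mul_dvd_mul (Nat.gcd_dvd_right _ _) (Nat.div_dvd_of_dvd (Nat.gcd_dvd_right _ _))⟩

theorem swapQ_val (N Q : ℕ) (d : Dv (N * Q)) :
    (swapQ N Q d).1 = Nat.gcd d.1 N * (Q / Nat.gcd d.1 Q) := rfl

theorem ALQ_eq_gcd_mul (N Q : ℕ) (hcop : Nat.Coprime N Q) (d : Dv (N * Q)) :
    d.1 = Nat.gcd d.1 N * Nat.gcd d.1 Q := by
  rw [← Nat.Coprime.gcd_mul d.1 hcop]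
  exact (Nat.gcd_eq_left d.2).symm

/-- the value of `swapQ` on `e * u`. -/
theorem swapQ_mul (N Q : ℕ) (hQ : Q ≠ 0) (hcop : Nat.Coprime N Q) (e u u' : ℕ) (he : e ∣ N)
    (hu : u * u' = Q) (h : e * u ∣ N * Q) : (swapQ N Q ⟨e * u, h⟩).1 = e * u' := by
  have hu0 : u ≠ 0 := by rintro rfl; exact hQ (by simpa using hu.symm)
  have huQ : u ∣ Q := ⟨u', hu.symm⟩
  have h1 : Nat.gcd (e * u) N = e := by
    rw [Nat.Coprime.gcd_mul_right_cancel e (Nat.Coprime.coprime_dvd_left huQ hcop.symm)]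
    exact Nat.gcd_eq_left he
  have h2 : Nat.gcd (e * u) Q = u := by
    rw [Nat.Coprime.gcd_mul_left_cancel u (Nat.Coprime.coprime_dvd_left he hcop)]
    exact Nat.gcd_eq_left huQ
  rw [swapQ_val]
  show Nat.gcd (e * u) N * (Q / Nat.gcd (e * u) Q) = e * u'
  rw [h1, h2, ← hu, Nat.mul_div_cancel_left _ (Nat.pos_of_ne_zero hu0)]

theorem swapQ_swapQ (N Q : ℕ) (hQ : Q ≠ 0) (hcop : Nat.Coprime N Q) (d : Dv (N * Q)) :
    swapQ N Q (swapQ N Q d) = d := by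
  apply Subtype.ext
  have hu : (Q / Nat.gcd d.1 Q) * Nat.gcd d.1 Q = Q := Nat.div_mul_cancel (Nat.gcd_dvd_right _ _)
  have h := swapQ_mul N Q hQ hcop (Nat.gcd d.1 N) (Q / Nat.gcd d.1 Q) (Nat.gcd d.1 Q)
    (Nat.gcd_dvd_right _ _) hu (swapQ N Q d).2
  have e1 : swapQ N Q d = ⟨Nat.gcd d.1 N * (Q / Nat.gcd d.1 Q), (swapQ N Q d).2⟩ := rfl
  rw [e1, h]
  exact (ALQ_eq_gcd_mul N Q hcop d).symm

/-- the analytic identity behind `W_Q`. -/
theorem ALQ_mulH (N Q e u u' c : ℕ) [NeZero Q] [NeZero (e * u)] [NeZero (e * u')] (a b : ℤ)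
    (hab : a * Q + b * N = 1) (hN : N = e * c) (hu : u * u' = Q) (γ₀ γ : SL(2, ℤ))
    (g00 : γ₀ 0 0 = 1) (g01 : γ₀ 0 1 = -b) (g10 : γ₀ 1 0 = N) (g11 : γ₀ 1 1 = Q * a)
    (k00 : γ 0 0 = u) (k01 : γ 0 1 = e * (-b)) (k10 : γ 1 0 = c) (k11 : γ 1 1 = u' * a) (τ : ℍ) :
    mulH (e * u) (γ₀ • mulH Q τ) = γ • mulH (e * u') τ := by
  apply UpperHalfPlane.ext
  have hden1 := SL_denom_ne_zero γ₀ (mulH Q τ)
  have hden2 := SL_denom_ne_zero γ (mulH (e * u') τ)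
  rw [coe_mulH, coe_SL_smul, coe_SL_smul]
  rw [coe_mulH] at hden1 hden2 ⊢
  rw [coe_mulH]
  rw [g00, g01, g10, g11] at *
  rw [k00, k01, k10, k11] at *
  have hNC : (N : ℂ) = e * c := by exact_mod_cast hN
  have hQC : (Q : ℂ) = u * u' := by exact_mod_cast hu.symm
  have hQ0 : (Q : ℂ) ≠ 0 := by exact_mod_cast NeZero.ne Q
  have hu0 : (u : ℂ) ≠ 0 := by
    intro h; apply hQ0; rw [hQC, h, zero_mul]
  have hu'0 : (u' : ℂ) ≠ 0 := by
    intro h; apply hQ0; rw [hQC, h, mul_zero]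
  push_cast at hden1 hden2 ⊢
  rw [hNC, hQC] at hden1 ⊢
  have e1 : (e : ℂ) * c * (u * u' * τ) + u * u' * a = u * (c * (e * u' * τ) + u' * a) := by ring
  rw [e1]
  field_simp

/-- **The Atkin–Lehner involution `W_Q`**, on generators. -/
theorem exists_atkinLehnerQ (L N Q : ℕ) [NeZero L] (hL : L = N * Q) (hcop : Nat.Coprime N Q) :
    ∃ w : FF L →ₐ[Qb] FF L,
      ∀ (e u u' : ℕ) (_ : NeZero (e * u)) (_ : NeZero (e * u')) (_ : e ∣ N) (_ : u * u' = Q)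
        (h1 : e * u ∣ L) (h2 : e * u' ∣ L), w (jF L (e * u) h1) = jF L (e * u') h2 := by
  classical
  subst hL
  have hN0 : N ≠ 0 := fun h => NeZero.ne (N * Q) (by rw [h, zero_mul])
  have hQ0 : Q ≠ 0 := fun h => NeZero.ne (N * Q) (by rw [h, mul_zero])
  have : NeZero N := ⟨hN0⟩
  have : NeZero Q := ⟨hQ0⟩
  set s := swapQ N Q with hs
  have hcop' : IsCoprime (Q : ℤ) (N : ℤ) := by
    rw [Nat.isCoprime_iff_coprime]
    exact hcop.symm
  obtain ⟨a, b, hab⟩ := hcop'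
  obtain ⟨γ₀, hγ₀⟩ := exists_SL !![1, -b; (N : ℤ), Q * a] (by
    rw [Matrix.det_fin_two_of]; linarith)
  have g00 : γ₀ 0 0 = 1 := by simp [hγ₀]
  have g01 : γ₀ 0 1 = -b := by simp [hγ₀]
  have g10 : γ₀ 1 0 = N := by simp [hγ₀]
  have g11 : γ₀ 1 1 = Q * a := by simp [hγ₀]
  let W : ℍ → ℍ := fun τ => γ₀ • mulH Q τ
  have key : ∀ (d : Dv (N * Q)) (τ : ℍ), jd (s d).1 τ = jd d.1 (W τ) := by
    intro d τ
    set e := Nat.gcd d.1 N with he
    set u := Nat.gcd d.1 Q with hu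
    set u' := Q / u with hu'
    have hd : d.1 = e * u := ALQ_eq_gcd_mul N Q hcop d
    have huu : u * u' = Q := Nat.mul_div_cancel' (Nat.gcd_dvd_right _ _)
    have hsd : (s d).1 = e * u' := rfl
    obtain ⟨c, hc⟩ : e ∣ N := Nat.gcd_dvd_right _ _
    have i1 : NeZero (e * u) := ⟨hd ▸ NeZero.ne d.1⟩
    have i2 : NeZero (e * u') := ⟨hsd ▸ NeZero.ne (s d).1⟩
    obtain ⟨γ, hγ⟩ := exists_SL !![(u : ℤ), e * (-b); (c : ℤ), u' * a] (by
      rw [Matrix.det_fin_two_of]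
      have h1 : (N : ℤ) = e * c := by exact_mod_cast hc
      have h2 : (Q : ℤ) = u * u' := by exact_mod_cast huu.symm
      rw [h1, h2] at hab
      linarith)
    have k00 : γ 0 0 = u := by simp [hγ]
    have k01 : γ 0 1 = e * (-b) := by simp [hγ]
    have k10 : γ 1 0 = c := by simp [hγ]
    have k11 : γ 1 1 = u' * a := by simp [hγ]
    rw [AtkinLehner.jd_congr hsd, AtkinLehner.jd_congr hd]
    unfold jd
    rw [ALQ_mulH N Q e u u' c a b hab hc huu γ₀ γ g00 g01 g10 g11 k00 k01 k10 k11 τ, jfun_smul]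
  have hev : ∀ (p : MvPolynomial (Dv (N * Q)) Kb) (τ : ℍ),
      phiH (N * Q) (MvPolynomial.rename s p) τ = phiH (N * Q) p (W τ) := by
    intro p τ
    have e1 : ∀ (q : MvPolynomial (Dv (N * Q)) Kb) (σ : ℍ),
        phiH (N * Q) q σ = MvPolynomial.aeval (fun d : Dv (N * Q) => jd d.1 σ) q := by
      intro q σ
      have := MvPolynomial.comp_aeval_apply (f := fun d : Dv (N * Q) => jd d.1)
        (Pi.evalAlgHom Kb (fun _ : ℍ => ℂ) σ) q
      exact this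
    have e2 : (fun d : Dv (N * Q) => jd d.1 τ) ∘ s = fun d : Dv (N * Q) => jd d.1 (W τ) := by
      funext d
      exact key d τ
    rw [e1, e1, MvPolynomial.aeval_rename, e2]
  have hfwd : ∀ p : MvPolynomial (Dv (N * Q)) Kb, phiF (N * Q) p = 0 →
      phiF (N * Q) (MvPolynomial.rename s p) = 0 := by
    intro p hp
    rw [phiF_eq_zero_iff] at hp ⊢
    funext τ
    rw [hev, hp]
    rfl
  have hss : ∀ p : MvPolynomial (Dv (N * Q)) Kb,
      MvPolynomial.rename s (MvPolynomial.rename s p) = p := by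
    intro p
    rw [MvPolynomial.rename_rename]
    have : s ∘ s = id := by
      funext d
      exact swapQ_swapQ N Q hQ0 hcop d
    rw [this, MvPolynomial.rename_id_apply]
  obtain ⟨w, hw⟩ := exists_lift_FN (N * Q)
    ((phiF (N * Q)).comp (MvPolynomial.rename s)) (by
      intro p
      constructor
      · intro h
        have h' : phiF (N * Q) (MvPolynomial.rename s p) = 0 := h
        have := hfwd _ h'
        rwa [hss] at this
      · intro h
        exact hfwd p h)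
  have hwj : ∀ d : Dv (N * Q), w (jF (N * Q) d.1 d.2) = jF (N * Q) (s d).1 (s d).2 := by
    intro d
    have := hw (MvPolynomial.X d)
    simpa [phiF] using this
  have jF_congr : ∀ (x y : ℕ) (_ : NeZero x) (_ : NeZero y) (hx : x ∣ N * Q) (hy : y ∣ N * Q),
      x = y → jF (N * Q) x hx = jF (N * Q) y hy := by
    intro x y _ _ hx hy hxy
    subst hxy
    rfl
  refine ⟨w, ?_⟩
  intro e u u' i1 i2 he hu h1 h2
  have h3 := hwj ⟨e * u, h1⟩
  rw [h3]
  apply jF_congr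
  exact swapQ_mul N Q hQ0 hcop e u u' he hu h1

end

end Fermat.Agent.S36.Mod
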