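import Fermat.Agent.S36.Mod.Chart.Lift
import Fermat.Agent.S36.Mod.Chart.Fin
import Fermat.Agent.S36.R.Global
import Fermat.Agent.S36.R.Hor
import Fermat.Agent.S24.FF.PlaceBasic

/-!
# S36 / Mod / Key : the abstract end game      (tasks `S36/MK-hor`, `S36/MK-V`, `S36/MK-ic`, `S36/MK-key`)

`S : Val.Setup`, `D0 : QData … π x`, `Dinf : QData … π x⁻¹` (the two charts), their `Extra`, `TowerF`.  Then for `f ∈ F2ˣ` with
`m ∣ ord_P f` at all places of `F2 / K` and both norms of the form `const * m`-th power:   `f ^ κ = const * m`-th power,   `κ = (l+1)(l-1)l(l²-1)`.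

* `HorPow.transfer` : `HorPow` is invariant under a ring isomorphism commuting with the maps to `F` (`𝔮 ↦ 𝔮.comap e`).
* `QData.horPow` (task `MK-hor`): `R.Hor.horPow_of_places` with the instances
  `letI := algE (A := A) t; letI := algL (A := A) F2 t; haveI := isScalarTower_alg (A := A) (L := F2) t; haveI := isFractionRing_algE D.ht D.hgen`,
  transferred along the identity `integralClosure A[X] F2 ≃+* (Mx A F2 t).toSubring` (see `Mx_isNoetherianRing` in `Chart/Fin.lean`);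
  `e (algebraMap A[X] _ (C π)) = D.chart.p1 (D.chart.α D.chart.pi)` by `Subtype.ext` (`D.cst_π`, `D.a0_E`, `D.al_E`, `IsScalarTower.algebraMap_apply`).
* `Mx_isIntegrallyClosed` (task `MK-ic`): as `Mx_isNoetherianRing`, from `integralClosure.isIntegrallyClosedOfFiniteExtension E` and the same `RingEquiv`
  (`IsIntegrallyClosed.of_equiv`).
* `int3_V` (task `MK-V`): `W = 1 + π y`, `lam = c2 a + π z` at the place, `a ^ m = 1` ⟹ `(W ^ k * lam ^ m - 1) / π` integral at the place.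
  General lemma for one ring hom `Φ : F2 → Ω` and `InV`: the set `{y : InV (Φ y)}` is a subring (`QLink.vSubring`); `u ≡ u' , v ≡ v' mod π` ⟹ `u v ≡ u' v'`;
  constants `c2 a` with `a ^ m = 1` are integral at the three places (`InV` is integrally closed: or use `hcst`).
* `isPiOLx_of_int3`: `D.q2` + `isPiOLx_iff` (`y = π • (y / π)`).
* `key` (task `MK-key`): assembly:
  1. `S.exists_W2` ⟹ `c0 g W H1 H2 ua ub uc ud`;  2. `S.exists_lam` with `a = ((ub ud ua^(m-1) uc^(m-1))^(l-1))`, `b = (ub ua^(m-1))^l (uc ud^(m-1))`, `c = 1`;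
  3. `m ∣ ord_P W` (`Place.ord_mul`, `ord` of a constant is `0`: both `c` and `c⁻¹` lie in the valuation ring; `ord_pow`);  `QData.horPow` in both charts;
  4. `Chart.chart_lift` for `D0.chart`, `Dinf.chart` ⟹ `Y0`, `Yinf`;  5. `isPiOLx_of_int3`, `isPiOLx_inv_iff`;  `int3_V`;
  6. `R.Global.global` ⟹ `V = W^(l²-1) lam^m = g'^m`;  7. `f^κ = c2 (c0^(l²-1))⁻¹ * (g' / (g^(l²-1) lam))^m`.
-/

set_option autoImplicit false

open Polynomial AlgebraicCurve

namespace Fermat.Agent.S36.Mod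

open Fermat.Agent.Crux.G Fermat.Agent.Crux.G.QLink Fermat.Agent.S36.Val Fermat.Agent.S36.R
  Fermat.Agent.S36.Norm

theorem HorPow.transfer {M M' F : Type*} [CommRing M] [CommRing M'] [Field F] [Algebra M F]
    [Algebra M' F] (e : M ≃+* M') (he : ∀ a, algebraMap M' F (e a) = algebraMap M F a) {π : M}
    {m : ℕ} {W : F} (h : HorPow π m W) : HorPow (e π) m W := by
  intro 𝔮 h𝔮 hπ
  obtain ⟨y, a, b, hy, ha, hb, hab⟩ := h (𝔮.comap (e : M →+* M')) (Ideal.comap_isPrime _ _)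
    (fun h' => hπ h')
  exact ⟨y, e a, e b, hy, ha, hb, by rw [he, he]; exact hab⟩

theorem Mx_isIntegrallyClosed {A E F : Type*} [CommRing A] [IsDomain A]
    [IsDiscreteValuationRing A] [Field E] [CharZero E] [Field F] [Algebra A E] [Algebra E F]
    [Algebra A F] [IsScalarTower A E F] [FiniteDimensional E F] {t : E} (ht : Transcendental A t)
    (hgen : ∀ c : E, ∃ p q : A[X], q ≠ 0 ∧ c * aeval t q = aeval t p) :
    IsIntegrallyClosed (Mx A F t).toSubring := by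
  let _ := algE (A := A) t
  let _ := algL (A := A) F t
  have := isScalarTower_alg (A := A) (L := F) t
  have := isFractionRing_algE ht hgen
  have h : IsIntegrallyClosed (integralClosure A[X] F) :=
    integralClosure.isIntegrallyClosedOfFiniteExtension E
  let e : (integralClosure A[X] F) ≃+* (Mx A F t).toSubring :=
    { toFun := fun y => ⟨y.1, y.2⟩
      invFun := fun y => ⟨y.1, y.2⟩
      left_inv := fun _ => rfl
      right_inv := fun _ => rfl
      map_mul' := fun _ _ => rfl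
      map_add' := fun _ _ => rfl }
  exact IsIntegrallyClosed.of_equiv e

variable {l : ℕ} {K F0 F1 F2 Ω O κ Ω1 O1 ι μ : Type*} [Field K] [Field F0] [Field F1]
    [Field F2] [Field Ω] [CommRing O] [Field κ] [Field Ω1] [CommRing O1] [Fintype ι]
    [Fintype μ]
variable {A E : Type*} [CommRing A] [IsDomain A] [IsDiscreteValuationRing A] [Field E] [CharZero E]
    [Algebra A E] [Algebra E F0] [Algebra E F1] [Algebra E F2] [Algebra A F0] [Algebra A F1]
    [Algebra A F2] [IsScalarTower A E F0] [IsScalarTower A E F1] [IsScalarTower A E F2]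
    [FiniteDimensional E F0] [FiniteDimensional E F1] [FiniteDimensional E F2]

variable {S : Setup l K F0 F1 F2 Ω O κ Ω1 O1 ι μ} {i₀ : ι} {b0 : F0 →+* F1}
    {w1 : F1 →+* F1} {w2 : F2 →+* F2} {π : A}

theorem QData.horPow {t : E} (D : QData S i₀ b0 w1 w2 π t) [Algebra A K] [IsFractionRing A K]
    [Algebra K F2] (hAK : ∀ a : A, algebraMap A F2 a = algebraMap K F2 (algebraMap A K a))
    (m : ℕ) (W : F2) (hW : W ≠ 0) (h : ∀ P : Place K F2, (m : ℤ) ∣ P.ord W) :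
    HorPow (D.chart.p1 (D.chart.α D.chart.pi)) m W := by
  let _ := algE (A := A) t
  let _ := algL (A := A) F2 t
  have := isScalarTower_alg (A := A) (L := F2) t
  have := isFractionRing_algE D.ht D.hgen
  have h1 := R.Hor.horPow_of_places (A := A) (K := K) (E := E) (F := F2) (fun a => by
    rw [← hAK]
    change algebraMap E F2 (aeval t (C a)) = _
    rw [aeval_C, ← IsScalarTower.algebraMap_apply]) π D.hπ m W hW h
  let e : (integralClosure A[X] F2) ≃+* (Mx A F2 t).toSubring :=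
    { toFun := fun y => ⟨y.1, y.2⟩
      invFun := fun y => ⟨y.1, y.2⟩
      left_inv := fun _ => rfl
      right_inv := fun _ => rfl
      map_mul' := fun _ _ => rfl
      map_add' := fun _ _ => rfl }
  have h2 := HorPow.transfer e (fun _ => rfl) h1
  have h3 : e (algebraMap A[X] (integralClosure A[X] F2) (C π))
      = D.chart.p1 (D.chart.α D.chart.pi) := by
    apply Subtype.ext
    change algebraMap E F2 (aeval t (C π)) = S.al (S.a0 (S.cst S.π))
    rw [D.cst_π, aeval_C, IsScalarTower.algebraMap_apply A E F0, D.a0_E, D.al_E]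
  rw [← h3]
  exact h2

theorem QData.isPiOLx_of_int3 {t : E} (D : QData S i₀ b0 w1 w2 π t) (y : F2)
    (h : S.Int3 i₀ (y / S.c2 S.π)) : IsPiOLx π t y := by
  have hc2 : S.c2 S.π = algebraMap E F2 (algebraMap A E π) := by
    change S.al (S.a0 (S.cst S.π)) = _
    rw [D.cst_π, IsScalarTower.algebraMap_apply A E F0, D.a0_E, D.al_E]
  have hne : algebraMap E F2 (algebraMap A E π) ≠ 0 := by
    intro h0
    rw [map_eq_zero] at h0
    have h1 : aeval t (C π) = 0 := by rw [aeval_C, h0]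
    exact D.hπ.ne_zero (C_eq_zero.1 ((transcendental_iff.1 D.ht) _ h1))
  rw [isPiOLx_iff]
  refine ⟨y / S.c2 S.π, D.q2 _ h, ?_⟩
  rw [hc2, mul_div_cancel₀ _ hne]

/-- (MK-V helper) the congruence at one place. -/
theorem MKV_one_place {F Ω' : Type*} [Field F] [Field Ω'] (R : Subring Ω') (Φ : F →+* Ω') (ϖ : F)
    (hϖ : Φ ϖ ∈ R) (m k : ℕ) (W lam c : F) (hc : c ^ m = 1) (hcR : Φ c ∈ R)
    (hW : Φ ((W - 1) / ϖ) ∈ R) (hl : Φ ((lam - c) / ϖ) ∈ R) :
    Φ ((W ^ k * lam ^ m - 1) / ϖ) ∈ R := by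
  by_cases h0 : ϖ = 0
  · rw [h0, div_zero, map_zero]
    exact R.zero_mem
  have hWR : Φ W ∈ R := by
    have : W = 1 + ϖ * ((W - 1) / ϖ) := by field_simp; ring
    rw [this, map_add, map_one, map_mul]
    exact R.add_mem R.one_mem (R.mul_mem hϖ hW)
  have hlR : Φ lam ∈ R := by
    have : lam = c + ϖ * ((lam - c) / ϖ) := by field_simp; ring
    rw [this, map_add, map_mul]
    exact R.add_mem hcR (R.mul_mem hϖ hl)
  have key : (W ^ k * lam ^ m - 1) / ϖ
      = ((W - 1) / ϖ) * (∑ i ∈ Finset.range k, W ^ i) * lam ^ m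
        + ((lam - c) / ϖ) * ∑ i ∈ Finset.range m, lam ^ i * c ^ (m - 1 - i) := by
    have h1 : (∑ i ∈ Finset.range k, W ^ i) * (W - 1) = W ^ k - 1 := geom_sum_mul W k
    have h2 : (∑ i ∈ Finset.range m, lam ^ i * c ^ (m - 1 - i)) * (lam - c) = lam ^ m - c ^ m :=
      geom_sum₂_mul lam c m
    rw [hc] at h2
    have h3 : W ^ k * lam ^ m - 1 = (W ^ k - 1) * lam ^ m + (lam ^ m - 1) := by ring
    rw [h3, ← h1, ← h2]
    field_simp
  rw [key, map_add, map_mul, map_mul, map_mul, map_pow, map_sum, map_sum]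
  refine R.add_mem (R.mul_mem (R.mul_mem hW (R.sum_mem fun i _ => ?_)) (R.pow_mem hlR _))
    (R.mul_mem hl (R.sum_mem fun i _ => ?_))
  · rw [map_pow]; exact R.pow_mem hWR _
  · rw [map_mul, map_pow, map_pow]; exact R.mul_mem (R.pow_mem hlR _) (R.pow_mem hcR _)

/-- `V ≡ 1`. -/
theorem int3_V (S : Setup l K F0 F1 F2 Ω O κ Ω1 O1 ι μ) (i₀ : ι) (m k : ℕ) (W lam : F2)
    (a b c : K) (ha : a ^ m = 1) (hb : b ^ m = 1) (hc : c ^ m = 1)
    (hcst : ∀ u : K, u ^ m = 1 → InV S.inc S.red (S.Φ' (S.cst u)))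
    (hW : S.Int3 i₀ ((W - 1) / S.c2 S.π))
    (hl0 : InV S.inc S.red (S.Φinf ((lam - S.c2 a) / S.c2 S.π)))
    (hl1 : InV S.inc1 S.red1 (S.τ i₀ ((lam - S.c2 b) / S.c2 S.π)))
    (hl2 : InV S.inc S.red (S.Φ0 ((lam - S.c2 c) / S.c2 S.π))) :
    S.Int3 i₀ ((W ^ k * lam ^ m - 1) / S.c2 S.π) := by
  have e1 : ∀ u : K, S.Φinf (S.c2 u) = S.Φ' (S.cst u) := fun u => S.Φinf_i0 _
  have e2 : ∀ u : K, S.τ i₀ (S.c2 u) = S.base (S.Φ' (S.cst u)) := fun u => S.τ_i0 _ _
  have e3 : ∀ u : K, S.Φ0 (S.c2 u) = S.Φ' (S.cst u) := fun u => by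
    have : S.Φ0 (S.c2 u) = S.V (S.V (S.Φ' (S.cst u))) := S.Φ0_i0 _
    rw [this, S.V_cst, S.V_cst]
  have hπ : InV S.inc S.red (S.Φ' (S.cst S.π)) := by rw [S.Φ'_π]; exact inV_inc _
  have hpow : ∀ u : K, u ^ m = 1 → (S.c2 u) ^ m = 1 := fun u hu => by
    rw [← map_pow, hu, map_one]
  refine ⟨?_, ?_, ?_⟩
  · exact MKV_one_place (vSubring S.inc S.red) S.Φinf (S.c2 S.π) (by rw [e1]; exact hπ) m k W lam
      (S.c2 a) (hpow a ha) (by rw [e1]; exact hcst a ha) hW.1 hl0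
  · exact MKV_one_place (vSubring S.inc1 S.red1) (S.τ i₀) (S.c2 S.π)
      (by rw [e2]; exact S.hbase.inV hπ) m k W lam
      (S.c2 b) (hpow b hb) (by rw [e2]; exact S.hbase.inV (hcst b hb)) hW.2.1 hl1
  · exact MKV_one_place (vSubring S.inc S.red) S.Φ0 (S.c2 S.π) (by rw [e3]; exact hπ) m k W lam
      (S.c2 c) (hpow c hc) (by rw [e3]; exact hcst c hc) hW.2.2 hl2

/-- **The abstract end game.** -/
theorem key (hl : l.Prime) {x : E} (D0 : QData S i₀ b0 w1 w2 π x)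
    (Dinf : QData S i₀ b0 w1 w2 π x⁻¹)
    (X0 : D0.chart.Extra hl.two_le) (Xinf : Dinf.chart.Extra hl.two_le)
    (T0 : TowerF l (D0.chart.tower hl.two_le X0) S.a0 S.al S.be)
    (Tinf : TowerF l (Dinf.chart.tower hl.two_le Xinf) S.a0 S.al S.be)
    (hded0 : IsDedekindDomain D0.chart.Rr) (hdedinf : IsDedekindDomain Dinf.chart.Rr)
    [Algebra A K] [IsFractionRing A K] [CharZero K] [Algebra K F2]
    (hK2 : ∀ c : K, algebraMap K F2 c = S.c2 c)
    (hAK : ∀ a : A, S.cst (algebraMap A K a) = algebraMap A F0 a)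
    (Φ : F2 →+* LaurentSeries K)
    (hΦA : ∀ a : A, Φ (algebraMap A F2 a) = HahnSeries.C (algebraMap A K a))
    (hΦx : (Φ (algebraMap E F2 x)).order < 0)
    (m : ℕ) (hm0 : 0 < m) (hlm : l.Coprime m) (hmπ : ¬ π ∣ (m : A)) (ζ : A)
    (hζ : IsPrimitiveRoot ζ m) (htame : ∀ u : A, π ∣ u - 1 → ∃ c : A, c ^ m = u)
    (f : F2) (hf : f ≠ 0) (hord : ∀ P : Place K F2, (m : ℤ) ∣ P.ord f)
    (k1 k2 : K) (hk1 : k1 ≠ 0) (hk2 : k2 ≠ 0) (h1 h2 : F1)
    (hfA : S.NmA f = S.a0 (S.cst k1) * h1 ^ m) (hfB : S.NmB f = S.a0 (S.cst k2) * h2 ^ m) :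
    ∃ (c : K) (g : F2), f ^ ((l + 1) * (l - 1) * l * (l ^ 2 - 1)) = S.c2 c * g ^ m := by
  have hl2 : 2 ≤ l := hl.two_le
  have hx0 : x ≠ 0 := fun h => D0.ht (h ▸ isAlgebraic_zero)
  -- roots of unity of `K` lie in `A`
  have hroot : ∀ u : K, u ^ m = 1 → ∃ a : A, algebraMap A K a = u := by
    intro u hu
    have hint : IsIntegral A u := by
      refine ⟨X ^ m - 1, monic_X_pow_sub_C (1 : A) hm0.ne', ?_⟩
      simp [hu]
    exact IsIntegrallyClosed.isIntegral_iff.mp hint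
  have hcst : ∀ u : K, u ^ m = 1 → InV S.inc S.red (S.Φ' (S.cst u)) := by
    intro u hu
    obtain ⟨a, rfl⟩ := hroot u hu
    rw [hAK]
    exact D0.inV_A a
  have hmem0 : ∀ u : K, u ^ m = 1 → S.cst u ∈ (Mx A F0 x).toSubring := by
    intro u hu
    obtain ⟨a, rfl⟩ := hroot u hu
    rw [hAK]
    exact (Mx A F0 x).algebraMap_mem a
  have hmeminf : ∀ u : K, u ^ m = 1 → S.cst u ∈ (Mx A F0 x⁻¹).toSubring := by
    intro u hu
    obtain ⟨a, rfl⟩ := hroot u hu
    rw [hAK]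
    exact (Mx A F0 x⁻¹).algebraMap_mem a
  have hAK2 : ∀ a : A, algebraMap A F2 a = algebraMap K F2 (algebraMap A K a) := by
    intro a
    rw [hK2]
    show _ = S.al (S.a0 (S.cst (algebraMap A K a)))
    rw [hAK, IsScalarTower.algebraMap_apply A E F0, D0.a0_E, D0.al_E,
      ← IsScalarTower.algebraMap_apply]
  -- `m` is a unit of `A`
  obtain ⟨mi, hmi⟩ : ∃ mi : A, (m : A) * mi = 1 := by
    have hu : IsUnit (m : A) := by
      by_contra hnu
      have h1 : (m : A) ∈ IsLocalRing.maximalIdeal A := (IsLocalRing.mem_maximalIdeal _).2 hnu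
      rw [D0.hπ.maximalIdeal_eq, Ideal.mem_span_singleton] at h1
      exact hmπ h1
    obtain ⟨v, hv⟩ := hu
    exact ⟨(v⁻¹ : Aˣ), by rw [← hv]; simp⟩
  have hmu0 : IsUnit (m : (Mx A F0 x).toSubring) := by
    refine IsUnit.of_mul_eq_one ⟨algebraMap A F0 mi, (Mx A F0 x).algebraMap_mem mi⟩ ?_
    apply Subtype.ext
    show ((m : (Mx A F0 x).toSubring) : F0) * algebraMap A F0 mi = 1
    rw [Subring.coe_natCast, ← map_natCast (algebraMap A F0), ← map_mul, hmi, map_one]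
  have hmuinf : IsUnit (m : (Mx A F0 x⁻¹).toSubring) := by
    refine IsUnit.of_mul_eq_one ⟨algebraMap A F0 mi, (Mx A F0 x⁻¹).algebraMap_mem mi⟩ ?_
    apply Subtype.ext
    show ((m : (Mx A F0 x⁻¹).toSubring) : F0) * algebraMap A F0 mi = 1
    rw [Subring.coe_natCast, ← map_natCast (algebraMap A F0), ← map_mul, hmi, map_one]
  -- step 1
  obtain ⟨c0, g, W, H1, H2, ua, ub, uc, ud, hc0, hg, hW, hWint, hN1, hN2, hua, hub, huc, hud,
    ha, hb, hc, hd⟩ := S.exists_W2 hl m hm0 hlm f hf k1 k2 hk1 hk2 h1 h2 hfA hfB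
  -- step 2
  set a : K := (ub * ud * ua ^ (m - 1) * uc ^ (m - 1)) ^ (l - 1) with ha_def
  set b : K := (ub * ua ^ (m - 1)) ^ l * (uc * ud ^ (m - 1)) with hb_def
  have hmul : ∀ u v : K, u ^ m = 1 → v ^ m = 1 → (u * v) ^ m = 1 := by
    intro u v hu hv
    rw [mul_pow, hu, hv, one_mul]
  have hpw : ∀ (u : K) (n : ℕ), u ^ m = 1 → (u ^ n) ^ m = 1 := by
    intro u n hu
    rw [← pow_mul, mul_comm, pow_mul, hu, one_pow]
  have ham : a ^ m = 1 :=
    hpw _ _ (hmul _ _ (hmul _ _ (hmul _ _ hub hud) (hpw _ _ hua)) (hpw _ _ huc))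
  have hbm : b ^ m = 1 :=
    hmul _ _ (hpw _ _ (hmul _ _ hub (hpw _ _ hua))) (hmul _ _ huc (hpw _ _ hud))
  have har : ∃ r, r ≠ 0 ∧ IsRes S.inc S.red (S.Φ' (S.cst a)) r := by
    obtain ⟨r, hr⟩ := inV_iff.1 (hcst a ham)
    refine ⟨r, ?_, hr⟩
    rintro rfl
    have h1 := hr.pow m
    rw [← map_pow, ← map_pow, ham, map_one, map_one, zero_pow hm0.ne'] at h1
    exact one_ne_zero (isRes_one.unique S.P.inj h1)
  obtain ⟨lam, hlam, hlamI⟩ := S.exists_lam hl2 a b 1 har (hcst b hbm) (hcst 1 (one_pow m))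
  obtain ⟨hl0, hl1, hl2'⟩ := hlamI i₀
  -- step 3
  have hc20 : S.c2 c0 ≠ 0 := (map_ne_zero S.c2).2 hc0
  have hW0 : W ≠ 0 := by
    rw [hW]
    exact mul_ne_zero (mul_ne_zero hc20 (pow_ne_zero _ hf)) (pow_ne_zero _ hg)
  have hWord : ∀ P : Place K F2, (m : ℤ) ∣ P.ord W := by
    intro P
    have e0 : P.ord (S.c2 c0) = 0 := by
      rw [← hK2]
      exact Fermat.Agent.S24.FF.ord_algebraMap P c0
    rw [hW, P.ord_mul (mul_ne_zero hc20 (pow_ne_zero _ hf)) (pow_ne_zero _ hg),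
      P.ord_mul hc20 (pow_ne_zero _ hf), e0, zero_add, Fermat.Agent.S24.FF.ord_pow,
      Fermat.Agent.S24.FF.ord_pow]
    exact dvd_add (Dvd.dvd.mul_left (hord P) _) (Dvd.intro _ rfl)
  have hh0 := D0.horPow hAK2 m W hW0 hWord
  have hhinf := Dinf.horPow hAK2 m W hW0 hWord
  -- step 4
  obtain ⟨Y0, hY0, hY01⟩ := by
    haveI := Mx_isNoetherianRing (F := F0) D0.ht D0.hgen
    haveI := Mx_isNoetherianRing (F := F1) D0.ht D0.hgen
    haveI := Mx_isNoetherianRing (F := F2) D0.ht D0.hgen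
    haveI := Mx_isIntegrallyClosed (F := F1) D0.ht D0.hgen
    haveI := Mx_isIntegrallyClosed (F := F2) D0.ht D0.hgen
    haveI := Mx_isFractionRing (F := F0) D0.ht D0.hgen
    haveI := Mx_isFractionRing (F := F1) D0.ht D0.hgen
    haveI := Mx_isFractionRing (F := F2) D0.ht D0.hgen
    haveI := hded0
    exact D0.chart.chart_lift hl2 X0 T0 m hm0.ne' hmu0 W lam hlam (hWint i₀) hh0 H1 H2 hN1 hN2
      ua ub uc ud hmem0 ⟨hua, hub, huc, hud⟩ ha hb hc hd hl0 hl1 hl2'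
  obtain ⟨Yinf, hYinf, hYinf1⟩ := by
    haveI := Mx_isNoetherianRing (F := F0) Dinf.ht Dinf.hgen
    haveI := Mx_isNoetherianRing (F := F1) Dinf.ht Dinf.hgen
    haveI := Mx_isNoetherianRing (F := F2) Dinf.ht Dinf.hgen
    haveI := Mx_isIntegrallyClosed (F := F1) Dinf.ht Dinf.hgen
    haveI := Mx_isIntegrallyClosed (F := F2) Dinf.ht Dinf.hgen
    haveI := Mx_isFractionRing (F := F0) Dinf.ht Dinf.hgen
    haveI := Mx_isFractionRing (F := F1) Dinf.ht Dinf.hgen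
    haveI := Mx_isFractionRing (F := F2) Dinf.ht Dinf.hgen
    haveI := hdedinf
    exact Dinf.chart.chart_lift hl2 Xinf Tinf m hm0.ne' hmuinf W lam hlam (hWint i₀) hhinf H1 H2
      hN1 hN2 ua ub uc ud hmeminf ⟨hua, hub, huc, hud⟩ ha hb hc hd hl0 hl1 hl2'
  -- step 5
  have hV1 : IsPiOLx π x (W ^ (l ^ 2 - 1) * lam ^ m - 1) :=
    D0.isPiOLx_of_int3 _ (int3_V S i₀ m (l ^ 2 - 1) W lam a b 1 ham hbm (one_pow m) hcst
      (hWint i₀) hl0 hl1 hl2')
  have h01 : IsPiOLx π x (Y0 - 1) := D0.isPiOLx_of_int3 _ hY01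
  have hinf1 : IsPiOLx π x (Yinf - 1) :=
    (isPiOLx_inv_iff D0.hπ.prime hx0 _).1 (Dinf.isPiOLx_of_int3 _ hYinf1)
  -- step 6
  obtain ⟨g', hg'⟩ := R.Global.global π D0.hπ x D0.ht D0.hgen Φ hΦA hΦx m hm0 hmπ ζ hζ htame
    (W ^ (l ^ 2 - 1) * lam ^ m) hV1 Y0 Yinf hY0 hYinf h01 hinf1
  -- step 7
  refine ⟨(c0 ^ (l ^ 2 - 1))⁻¹, g' / (g ^ (l ^ 2 - 1) * lam), ?_⟩
  have hc2' : S.c2 (c0 ^ (l ^ 2 - 1)) ≠ 0 := (map_ne_zero S.c2).2 (pow_ne_zero _ hc0)
  rw [map_inv₀, div_pow, hg', hW, pow_mul f, map_pow]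
  have hgl : (g ^ (l ^ 2 - 1) * lam) ^ m ≠ 0 := pow_ne_zero _ (mul_ne_zero (pow_ne_zero _ hg) hlam)
  rw [map_pow] at hc2'
  field_simp
  ring

end Fermat.Agent.S36.Mod
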