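import Fermat.Agent.S36.Mod.Translate
import Fermat.Agent.S36.Mod.AL2
import Fermat.Agent.ES.B.Formal

/-!
# S36/Mod/MidEmb : the middle embeddings `τ_z : F_{Nℓ²} → ℚ̄((x))`

`ℓ` prime, `ℓ ∤ N`, `z` a primitive `ℓ`-th root of unity.  `τ_z` is the `ℚ̄`-algebra embedding with
`τ_z (j(x^d)) = j(x^d)` for `d ∣ N ℓ` and `τ_z (j(x^{ℓ² e})) = j((z x)^e)` for `e ∣ N`
(expansion at the cusps `a/ℓ` of `X₀(ℓ²)`).

Analytic source: `f ↦ f ∘ γ`, `γ = (1 0; ℓ N c' 1)`; `j(ℓ² e γ τ) = j(e (τ + k/ℓ))` if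
`N k c' ≡ 1 mod ℓ`.
-/

set_option autoImplicit false

open AlgebraicCurve ModularCurve UpperHalfPlane
open scoped MatrixGroups

namespace Fermat.Agent.S36.Mod

open Fermat.Agent.ES Fermat.Agent.S24 Fermat.Agent.S24.Hermite Fermat.Agent.S24.QDict

noncomputable section

/-- the analytic identity behind the middle embeddings. -/
theorem Mid_mulH (N ℓ e f : ℕ) [NeZero ℓ] [NeZero e] [NeZero (ℓ * ℓ * e)] (k c' y : ℤ)
    (hN : N = e * f) (hb : c' * (N * k) + y * ℓ = 1) (γ δ : SL(2, ℤ))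
    (g00 : γ 0 0 = 1) (g01 : γ 0 1 = 0) (g10 : γ 1 0 = ℓ * N * c') (g11 : γ 1 1 = 1)
    (k00 : δ 0 0 = ℓ) (k01 : δ 0 1 = -(e * k)) (k10 : δ 1 0 = f * c') (k11 : δ 1 1 = y) (τ : ℍ) :
    mulH (ℓ * ℓ * e) (γ • τ) = δ • mulH e (((k : ℝ) / ℓ) +ᵥ τ) := by
  apply UpperHalfPlane.ext
  have hden1 := SL_denom_ne_zero γ τ
  have hden2 := SL_denom_ne_zero δ (mulH e (((k : ℝ) / ℓ) +ᵥ τ))
  rw [Hermite.coe_mulH, coe_SL_smul, coe_SL_smul]
  rw [Hermite.coe_mulH, coe_vadd] at hden2 ⊢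
  rw [g00, g01, g10, g11] at *
  rw [k00, k01, k10, k11] at *
  have hNC : (N : ℂ) = e * f := by exact_mod_cast hN
  have hℓ0 : (ℓ : ℂ) ≠ 0 := by exact_mod_cast NeZero.ne ℓ
  have hbC : (c' : ℂ) * (N * k) + y * ℓ = 1 := by exact_mod_cast hb
  push_cast at hden1 hden2 ⊢
  have e2 : (f : ℂ) * c' * (e * ((k : ℂ) / ℓ + τ)) + y = ((ℓ : ℂ) * N * c' * τ + 1) / ℓ := by
    field_simp
    rw [hNC] at hbC ⊢
    linear_combination hbC
  have e1 : (ℓ : ℂ) * (e * ((k : ℂ) / ℓ + τ)) + -(e * k) = ℓ * e * τ := by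
    field_simp
    ring
  rw [e1, e2, one_mul, add_zero]
  field_simp

/-- divisors of `N ℓ²`. -/
theorem Mid_dvd_cases (N ℓ : ℕ) (hℓ : ℓ.Prime) (hN : ¬ ℓ ∣ N) (d : ℕ) (hd : d ∣ N * ℓ * ℓ) :
    (¬ ℓ * ℓ ∣ d ∧ d ∣ N * ℓ) ∨ ∃ e, e ∣ N ∧ d = ℓ * ℓ * e := by
  by_cases h : ℓ * ℓ ∣ d
  · right
    obtain ⟨e, rfl⟩ := h
    refine ⟨e, ?_, rfl⟩
    have h2 : ℓ * ℓ * e ∣ ℓ * ℓ * N := by
      rw [show ℓ * ℓ * N = N * ℓ * ℓ by ring]; exact hd
    exact Nat.dvd_of_mul_dvd_mul_left (Nat.mul_pos hℓ.pos hℓ.pos) h2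
  · left
    refine ⟨h, ?_⟩
    have hcop1 : Nat.Coprime N ℓ := ((Nat.Prime.coprime_iff_not_dvd hℓ).mpr hN).symm
    have hcop : Nat.Coprime N (ℓ ^ 2) := Nat.Coprime.pow_right 2 hcop1
    have hd' : d ∣ N * ℓ ^ 2 := by rw [pow_two, ← mul_assoc]; exact hd
    have h1 : d = Nat.gcd d N * Nat.gcd d (ℓ ^ 2) := by
      rw [← Nat.Coprime.gcd_mul d hcop]
      exact (Nat.gcd_eq_left hd').symm
    obtain ⟨i, hi, hgi⟩ := (Nat.dvd_prime_pow hℓ).mp (Nat.gcd_dvd_right d (ℓ ^ 2))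
    have hi1 : i ≤ 1 := by
      by_contra hcon
      have hi2 : i = 2 := by omega
      apply h
      rw [← pow_two, ← hi2, ← hgi]
      exact Nat.gcd_dvd_left _ _
    rw [h1, hgi]
    exact mul_dvd_mul (Nat.gcd_dvd_right _ _) (by
      calc ℓ ^ i ∣ ℓ ^ 1 := pow_dvd_pow ℓ hi1
        _ = ℓ := pow_one ℓ)

variable (N ℓ : ℕ) [NeZero N] [NeZero ℓ]

/-- the images of the generators. -/
def midSer (z : Qbˣ) (d : Dv (N * ℓ * ℓ)) : LaurentSeries Qb :=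
  if ℓ * ℓ ∣ d.1 then twist z (contract (ℓ * ℓ) (jSer d.1)) else jSer d.1

theorem midSer_of_not_dvd (z : Qbˣ) (d : Dv (N * ℓ * ℓ)) (h : ¬ ℓ * ℓ ∣ d.1) :
    midSer N ℓ z d = jSer d.1 := by
  rw [midSer, if_neg h]

theorem midSer_of_eq (z : Qbˣ) (d : Dv (N * ℓ * ℓ)) (e : ℕ) [NeZero e] (h : d.1 = ℓ * ℓ * e) :
    midSer N ℓ z d = twist z (jSer e) := by
  rw [midSer, if_pos ⟨e, h⟩, AtkinLehner.jSer_congr h, AL2_jSer_mul (ℓ * ℓ) e]
  congr 1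
  exact contract_Vq (ℓ * ℓ) _

/-- evaluation of polynomials at the series `midSer`. -/
def midPsi (z : Qbˣ) : MvPolynomial (Dv (N * ℓ * ℓ)) Kb →ₐ[Kb] LaurentSeries Kb :=
  MvPolynomial.aeval (midSer N ℓ z)

variable {N ℓ}

/-- the dictionary for one generator. -/
theorem Mid_gen (hℓ : ℓ.Prime) (hN : ¬ ℓ ∣ N) (z : Qbˣ) (k c' y : ℤ)
    (hz : iotaC (z : Qb) = Complex.exp (2 * Real.pi * Complex.I * (k / ℓ)))
    (hb : c' * (N * k) + y * ℓ = 1) (γ : SL(2, ℤ))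
    (g00 : γ 0 0 = 1) (g01 : γ 0 1 = 0) (g10 : γ 1 0 = ℓ * N * c') (g11 : γ 1 1 = 1)
    (d : Dv (N * ℓ * ℓ)) :
    ∃ hmem : (fun τ : ℍ => jd d.1 (γ • τ)) ∈ HolCusp 1,
      laurent 1 ⟨_, hmem⟩ = coeffMap iotaC (midSer N ℓ z d) := by
  rcases Mid_dvd_cases N ℓ hℓ hN d.1 d.2 with ⟨h1, h2⟩ | ⟨e, he, hde⟩
  · have hγ : γ ∈ CongruenceSubgroup.Gamma0 (N * ℓ) := by
      rw [CongruenceSubgroup.Gamma0_mem, g10]
      have : ((ℓ * N * c' : ℤ) : ZMod (N * ℓ)) = ((N * ℓ : ℕ) : ZMod (N * ℓ)) * (c' : ZMod (N * ℓ)) := by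
        push_cast; ring
      rw [this, ZMod.natCast_self, zero_mul]
    have hfun : (fun τ : ℍ => jd d.1 (γ • τ)) = jd d.1 := by
      funext τ
      exact jd_smul_of_mem_Gamma0 (N * ℓ) d.1 h2 γ hγ τ
    have hmem : (fun τ : ℍ => jd d.1 (γ • τ)) ∈ HolCusp 1 := by
      rw [hfun]; exact jd_mem_HolCusp_one d.1
    refine ⟨hmem, ?_⟩
    have e1 : (⟨_, hmem⟩ : HolCusp 1) = ⟨jd d.1, jd_mem_HolCusp_one d.1⟩ := Subtype.ext hfun
    rw [e1, laurent_jd, midSer_of_not_dvd N ℓ z d h1]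
  · have ie : NeZero e := ⟨fun h0 => NeZero.ne N (Nat.eq_zero_of_zero_dvd (h0 ▸ he))⟩
    obtain ⟨f, hf⟩ := he
    obtain ⟨δ, hδ⟩ := exists_SL !![(ℓ : ℤ), -(e * k); (f : ℤ) * c', y] (by
      rw [Matrix.det_fin_two_of]
      have h1 : (N : ℤ) = e * f := by exact_mod_cast hf
      rw [h1] at hb
      linarith)
    have k00 : δ 0 0 = ℓ := by simp [hδ]
    have k01 : δ 0 1 = -(e * k) := by simp [hδ]
    have k10 : δ 1 0 = f * c' := by simp [hδ]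
    have k11 : δ 1 1 = y := by simp [hδ]
    have hfun : (fun τ : ℍ => jd d.1 (γ • τ)) = fun τ : ℍ => jd e (((k : ℝ) / ℓ) +ᵥ τ) := by
      funext τ
      rw [AtkinLehner.jd_congr hde]
      unfold jd
      rw [Mid_mulH N ℓ e f k c' y hf hb γ δ g00 g01 g10 g11 k00 k01 k10 k11 τ, jfun_smul]
    have hmem' := translate_mem_r 1 ⟨jd e, jd_mem_HolCusp_one e⟩ ((k : ℝ) / ℓ)
    have hmem : (fun τ : ℍ => jd d.1 (γ • τ)) ∈ HolCusp 1 := by
      rw [hfun]; exact hmem'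
    refine ⟨hmem, ?_⟩
    have e1 : (⟨_, hmem⟩ : HolCusp 1) = ⟨_, hmem'⟩ := Subtype.ext hfun
    rw [e1, midSer_of_eq N ℓ z d e hde]
    ext n
    rw [laurent_translate_r, laurent_jd, coeffMap_coeff, coeffMap_coeff, twist_coeff, map_mul]
    congr 1
    have h3 : iotaC (((z ^ n : Qbˣ) : Qb)) = (iotaC (z : Qb)) ^ n := by
      rw [Units.val_zpow_eq_zpow_val, map_zpow₀]
    rw [h3, hz]
    congr 2
    push_cast
    ring

/-- **Key equivalence.** -/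
theorem Mid_psi_eq_zero_iff (hℓ : ℓ.Prime) (hN : ¬ ℓ ∣ N) (z : Qbˣ) (hz : IsPrimitiveRoot (z : Qb) ℓ)
    (p : MvPolynomial (Dv (N * ℓ * ℓ)) Kb) : midPsi N ℓ z p = 0 ↔ phiF (N * ℓ * ℓ) p = 0 := by
  classical
  -- the exponent `k`
  have hzC : IsPrimitiveRoot (iotaC (z : Qb)) ℓ := hz.map_of_injective iotaC.injective
  obtain ⟨i, -, hi, hiz⟩ := (Complex.isPrimitiveRoot_iff _ ℓ (NeZero.ne ℓ)).mp hzC
  have hcop : IsCoprime ((N : ℤ) * (i : ℤ)) (ℓ : ℤ) := by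
    have h1 : Nat.Coprime (N * i) ℓ :=
      Nat.Coprime.mul_left ((Nat.Prime.coprime_iff_not_dvd hℓ).mpr hN).symm hi
    have := Nat.isCoprime_iff_coprime.mpr h1
    exact_mod_cast this
  obtain ⟨c', y, hb⟩ := hcop
  obtain ⟨γ, hγ⟩ := exists_SL !![1, 0; (ℓ : ℤ) * N * c', 1] (by
    rw [Matrix.det_fin_two_of]; ring)
  have g00 : γ 0 0 = 1 := by simp [hγ]
  have g01 : γ 0 1 = 0 := by simp [hγ]
  have g10 : γ 1 0 = ℓ * N * c' := by simp [hγ]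
  have g11 : γ 1 1 = 1 := by simp [hγ]
  have hz' : iotaC (z : Qb) = Complex.exp (2 * Real.pi * Complex.I * (((i : ℤ) : ℂ) / ℓ)) := by
    rw [← hiz]; push_cast; rfl
  choose hmem hlau using Mid_gen hℓ hN z (i : ℤ) c' y hz' hb γ g00 g01 g10 g11
  -- the polynomial level map to `HolCusp 1`
  let θ : MvPolynomial (Dv (N * ℓ * ℓ)) Kb →+* HolCusp 1 :=
    MvPolynomial.eval₂Hom ((algebraMap ℂ (HolCusp 1)).comp iotaC)
      (fun d => ⟨fun τ : ℍ => jd d.1 (γ • τ), hmem d⟩)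
  let cγ : (ℍ → ℂ) →+* (ℍ → ℂ) :=
    { toFun := fun F τ => F (γ • τ)
      map_one' := rfl
      map_mul' := fun _ _ => rfl
      map_zero' := rfl
      map_add' := fun _ _ => rfl }
  have hθ : ∀ p, ((θ p : HolCusp 1) : ℍ → ℂ) = fun τ => phiH (N * ℓ * ℓ) p (γ • τ) := by
    intro p
    have : ((HolCusp 1).val : HolCusp 1 →+* (ℍ → ℂ)).comp θ =
        cγ.comp (phiH (N * ℓ * ℓ) : MvPolynomial (Dv (N * ℓ * ℓ)) Kb →+* (ℍ → ℂ)) := by
      apply MvPolynomial.ringHom_ext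
      · intro a
        simp only [θ, phiH, RingHom.comp_apply, MvPolynomial.eval₂Hom_C, RingHom.coe_coe,
          MvPolynomial.aeval_C]
        rfl
      · intro d
        simp only [θ, phiH, RingHom.comp_apply, MvPolynomial.eval₂Hom_X', RingHom.coe_coe,
          MvPolynomial.aeval_X]
        rfl
    exact congrArg (fun f => f p) this
  have hL : ∀ p, laurent 1 (θ p) = coeffMap iotaC (midPsi N ℓ z p) := by
    intro p
    have : ((laurent 1 : HolCusp 1 →+* LaurentSeries ℂ)).comp θ =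
        (coeffMap iotaC).comp
          (midPsi N ℓ z : MvPolynomial (Dv (N * ℓ * ℓ)) Kb →+* LaurentSeries Kb) := by
      apply MvPolynomial.ringHom_ext
      · intro a
        simp only [θ, midPsi, RingHom.comp_apply, MvPolynomial.eval₂Hom_C, RingHom.coe_coe,
          MvPolynomial.aeval_C, AlgHom.commutes]
        rw [algebraMap_laurentSeries_eq_single, algebraMap_laurentSeries_eq_single,
          coeffMap_single]
      · intro d
        simp only [θ, midPsi, RingHom.comp_apply, MvPolynomial.eval₂Hom_X', RingHom.coe_coe,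
          MvPolynomial.aeval_X]
        exact hlau d
    exact congrArg (fun f => f p) this
  rw [phiF_eq_zero_iff]
  have h1 : midPsi N ℓ z p = 0 ↔ coeffMap iotaC (midPsi N ℓ z p) = 0 :=
    (map_eq_zero_iff _ coeffMap_iotaC_injective).symm
  have h2 : laurent 1 (θ p) = 0 ↔ θ p = 0 := map_eq_zero_iff _ (laurent_injective 1)
  rw [h1, ← hL, h2]
  constructor
  · intro h
    funext τ
    have h3 := congrFun (hθ p) (γ⁻¹ • τ)
    rw [h] at h3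
    simp only [smul_inv_smul] at h3
    exact h3.symm
  · intro h
    apply Subtype.ext
    rw [hθ, h]
    rfl

/-- **The middle embeddings**, on generators. -/
theorem exists_midEmb_gen (hℓ : ℓ.Prime) (hN : ¬ ℓ ∣ N) (z : Qbˣ)
    (hz : IsPrimitiveRoot (z : Qb) ℓ) :
    ∃ τ : FF (N * ℓ * ℓ) →ₐ[Qb] LaurentSeries Qb,
      ∀ d : Dv (N * ℓ * ℓ), τ (jF (N * ℓ * ℓ) d.1 d.2) = midSer N ℓ z d := by
  obtain ⟨τ, hτ⟩ := exists_lift_FN (N * ℓ * ℓ) (midPsi N ℓ z) (Mid_psi_eq_zero_iff hℓ hN z hz)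
  refine ⟨τ, fun d => ?_⟩
  have := hτ (MvPolynomial.X d)
  simpa [phiF, midPsi] using this

end

end Fermat.Agent.S36.Mod
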