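import Fermat.Agent.S24.Laurent

/-!
# S36/Mod/Translate : Laurent expansion of `τ ↦ f (τ + r)`, `r` real

Copy of `S24.laurent_translate` (which is the case `r = 1`).
-/

set_option autoImplicit false

open AlgebraicCurve ModularCurve UpperHalfPlane Filter Topology
open scoped MatrixGroups IntermediateField Manifold

namespace Fermat.Agent.S36.Mod

open Fermat.Agent.S24 Fermat.Agent.S24.Laurent

noncomputable section

section aux

variable {h : ℝ}

theorem qq_vadd_r (r : ℝ) (τ : ℍ) :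
    qq h (r +ᵥ τ) = Complex.exp (2 * Real.pi * Complex.I * r / h) * qq h τ := by
  simp only [qq, coe_vadd, Function.Periodic.qParam, ← Complex.exp_add]
  congr 1
  ring

theorem NB_translate_r {F : ℍ → ℂ} (hF : NB h F) (r : ℝ) : NB h (fun τ => F (r +ᵥ τ)) := by
  refine ⟨mdiff_translate hF.hol r, periodic_of_vadd fun τ => ?_,
    hF.bdd.comp_tendsto (tendsto_vadd r)⟩
  rw [vadd_comm]
  exact vadd_of_periodic hF.per _

theorem qExpansion_translate_r {F : ℍ → ℂ} (hh : 0 < h) (hF : NB h F) (r : ℝ) (n : ℕ) :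
    (qExpansion h (fun τ => F (r +ᵥ τ))).coeff n
      = Complex.exp (2 * Real.pi * Complex.I * r / h) ^ n * (qExpansion h F).coeff n := by
  rw [← coeff_unique (c := fun n => Complex.exp (2 * Real.pi * Complex.I * r / h) ^ n
    * (qExpansion h F).coeff n) hh ((NB_translate_r hF r).analytic hh) ?_ n]
  intro τ
  have := hasSum_qExpansion hh hF.per hF.hol hF.bdd (r +ᵥ τ)
  convert this using 2 with n
  have h1 := qq_vadd_r (h := h) r τ
  simp only [qq] at h1
  rw [h1, mul_pow]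
  simp only [smul_eq_mul]
  ring

end aux

variable (h : ℕ) [NeZero h]

omit [NeZero h] in
theorem translate_mul_eq_r (f : ℍ → ℂ) (r : ℝ) (m : ℕ) :
    (fun τ : ℍ => f (r +ᵥ τ)) * qq (h : ℝ) ^ m
      = (Complex.exp (2 * Real.pi * Complex.I * r / (h : ℝ)) ^ m)⁻¹ •
        (fun τ : ℍ => (f * qq (h : ℝ) ^ m) (r +ᵥ τ)) := by
  funext τ
  simp only [Pi.mul_apply, Pi.pow_apply, Pi.smul_apply, smul_eq_mul, qq_vadd_r, mul_pow]
  have : Complex.exp (2 * Real.pi * Complex.I * r / (h : ℝ)) ^ m ≠ 0 :=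
    pow_ne_zero _ (Complex.exp_ne_zero _)
  field_simp

theorem translate_mem_r (f : HolCusp h) (r : ℝ) :
    (fun τ : ℍ => (f : ℍ → ℂ) (r +ᵥ τ)) ∈ HolCusp h := by
  obtain ⟨m, hm⟩ := exists_NB f
  refine ⟨mdiff_translate f.2.1 r, periodic_of_vadd fun τ => ?_, m, ?_⟩
  · rw [vadd_comm]
    exact vadd_of_periodic f.2.2.1 _
  · have h1 := translate_mul_eq_r h (f : ℍ → ℂ) r m
    have h2 : IsBoundedAtImInfty ((Complex.exp (2 * Real.pi * Complex.I * r / (h : ℝ)) ^ m)⁻¹ •
        (fun τ : ℍ => ((f : ℍ → ℂ) * qq (h : ℝ) ^ m) (r +ᵥ τ))) :=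
      (NB_translate_r hm r).bdd.const_smul_left _
    rw [← h1] at h2
    exact h2

theorem laurent_translate_r (f : HolCusp h) (r : ℝ) (k : ℤ) :
    (laurent h ⟨_, translate_mem_r h f r⟩).coeff k
      = Complex.exp (2 * Real.pi * Complex.I * r / h) ^ k * (laurent h f).coeff k := by
  obtain ⟨m, hm⟩ := exists_NB f
  have h1 := translate_mul_eq_r h (f : ℍ → ℂ) r m
  have hm' : NB (h : ℝ) (((⟨_, translate_mem_r h f r⟩ : HolCusp h) : ℍ → ℂ) * qq (h : ℝ) ^ m) := by
    show NB (h : ℝ) ((fun τ : ℍ => (f : ℍ → ℂ) (r +ᵥ τ)) * qq (h : ℝ) ^ m)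
    rw [h1]
    exact (NB.const _).mul (NB_translate_r hm r)
  rw [laurent_eq h _ hm', laurent_eq h f hm]
  unfold Lm
  rw [HahnSeries.coeff_single_mul, HahnSeries.coeff_single_mul, PowerSeries.coeff_coe,
    PowerSeries.coeff_coe]
  by_cases hk : k - -(m : ℤ) < 0
  · rw [if_pos hk, if_pos hk]
    simp
  · rw [if_neg hk, if_neg hk]
    show 1 * (qExpansion (h : ℝ) ((fun τ : ℍ => (f : ℍ → ℂ) (r +ᵥ τ)) * qq (h : ℝ) ^ m)).coeff _
      = _
    rw [h1, qExpansion_smul ((NB_translate_r hm r).analytic (hpos h))]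
    simp only [one_mul, map_smul, smul_eq_mul]
    rw [qExpansion_translate_r (hpos h) hm, ← mul_assoc]
    congr 1
    have hz : Complex.exp (2 * Real.pi * Complex.I * r / (h : ℝ)) ≠ 0 := Complex.exp_ne_zero _
    have hk' : ((k - -(m : ℤ)).natAbs : ℤ) = k + m := by
      rw [Int.natAbs_of_nonneg (not_lt.mp hk)]
      ring
    rw [← zpow_natCast, ← zpow_natCast, ← zpow_neg, ← zpow_add₀ hz, hk']
    push_cast
    congr 1
    ring

end

end Fermat.Agent.S36.Mod
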